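/-
P-S33, leaf (i) (helper81): the subgroup `K_m` of the classes of `J₀(Mq)` with a NORMALISED Kummer
function, and the first half of `QOrd`: `(τ - 1) J[m] ⊆ K_m` for `τ` in the inertia group at `q`.

Setting = that of `S34x/Inst/FinalStepsI`: level `M * q` (`q ∤ M` prime, the residue characteristic
of `A`), the two Gauss valuations `v_∞`, `v_0` of `F = F_{Mq}`, `S.O = O_∞ ⊓ O_0`,
`R = RedSetupInst.redSetup2 H hA` with `R.res = (red_∞, red_0)`.  The exponent `m > 0` is ARBITRARY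
(in particular `m = q ^ n`): nothing here uses that `m` is invertible in `A`.

* `UnitOne R z` : `z` is a unit of `S.O` with `R.res z = 1` (`= StepsAbs.OneRed` for a two-valuation
  setup); `unitOne_one`, `UnitOne.mul`, `UnitOne.inv`;
* `isKummerRep_zero_pow` : `m`-th powers are Kummer functions of the trivial class;
* `Km H hA m` : the subgroup of the classes `x` having a Kummer function `w` (`m D = div w`,
  `[D] = x`) with `UnitOne w`; `mem_Km_iff`, `zsmul_eq_zero_of_mem_Km`, `exists_data_of_mem_Km`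
  (the inputs `(w, D)` of `Lattice2.TwistFam.ofDivisor`);
* `smul_sub_mem_Km` : **(i)** `τ x - x ∈ K_m` for `x` of `m`-torsion, `τ` in the inertia group;
* `smul_mem_Km` : `K_m` is stable under the inertia group;
* `KmQb`, `KmTors`, `galTors_sub_mem_KmTors` : the instance over `ℚ̄` in the vocabulary
  `JTors` / `galTors` of `Gateway/S31/FromExport`.
-/
import Fermat.Agent.S34x.Inst.FinalStepsI
import Fermat.Agent.S34x.Inst.FinalStepsN
import Fermat.Agent.S34x.Inst.FinalBase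
import Fermat.Agent.S34x.TwoVal.ResidueInst
import Fermat.Agent.Gateway.Descent.HeckeSq
import Fermat.Agent.Gateway.Kummer.Basic
import Fermat.Agent.Gateway.S31.FromExport

set_option autoImplicit false
set_option linter.style.haveILetI false
set_option linter.unusedSectionVars false

noncomputable section

namespace Fermat.Agent.S33x.KummerPn

open ModularCurve AlgebraicCurve IntermediateField IsLocalRing
open Fermat.Agent.Gateway.Hecke Fermat.Agent.Gateway.ESC Fermat.Agent.Gateway.Kummer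
open Fermat.Agent.Gateway.Red Fermat.Agent.Gateway.GoodRed
open Fermat.Agent.S34x.TwoVal Fermat.Agent.S34x.C0two
open Fermat.Agent.S34x.Inst.RedSetupInst Fermat.Agent.S34x.Inst

/-! ### Units with reduction `1` -/

section UnitOne

variable {K : Type*} [Field K] {A : ValuationSubring K} {F : Type*} [Field F] [Algebra K F]
  {S : SmallRing F} {k κ : Type*} [Field k] [CommRing κ] [Algebra k κ]

/-- `z` is a unit of `S.O` with reduction `1` -/
def UnitOne (R : RedSetup2 A S k κ) (z : F) : Prop :=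
  ∃ hz : z ∈ S.O, z⁻¹ ∈ S.O ∧ R.res ⟨z, hz⟩ = 1

variable {R : RedSetup2 A S k κ}

theorem unitOne_one : UnitOne R (1 : F) :=
  ⟨S.O.one_mem, by rw [inv_one]; exact S.O.one_mem, map_one R.res⟩

theorem UnitOne.mul {z z' : F} (h : UnitOne R z) (h' : UnitOne R z') : UnitOne R (z * z') := by
  obtain ⟨hz, hzi, h1⟩ := h
  obtain ⟨hz', hzi', h1'⟩ := h'
  refine ⟨S.O.mul_mem hz hz', ?_, ?_⟩
  · rw [mul_inv]
    exact S.O.mul_mem hzi hzi'
  · have e : (⟨z * z', S.O.mul_mem hz hz'⟩ : S.O) = ⟨z, hz⟩ * ⟨z', hz'⟩ := rfl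
    rw [e, map_mul, h1, h1', one_mul]

theorem UnitOne.ne_zero [Nontrivial κ] {z : F} (h : UnitOne R z) : z ≠ 0 := by
  rintro rfl
  obtain ⟨hz, -, h1⟩ := h
  have e : (⟨0, hz⟩ : S.O) = 0 := rfl
  rw [e, map_zero] at h1
  exact zero_ne_one h1

theorem UnitOne.inv [Nontrivial κ] {z : F} (h : UnitOne R z) : UnitOne R z⁻¹ := by
  have hz0 := h.ne_zero
  obtain ⟨hz, hzi, h1⟩ := h
  refine ⟨hzi, by rwa [inv_inv], ?_⟩
  have e : (⟨z, hz⟩ : S.O) * ⟨z⁻¹, hzi⟩ = 1 := Subtype.ext (mul_inv_cancel₀ hz0)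
  have := congrArg R.res e
  rwa [map_mul, map_one, h1, one_mul] at this

end UnitOne

/-! ### `m`-th powers -/

section Gen

variable {K F : Type*} [Field K] [Field F] [Algebra K F] [HasPrincipalDivisors K F]

/-- `m`-th powers are Kummer representatives of the trivial class -/
theorem isKummerRep_zero_pow (m : ℕ) {f : F} (hf : f ≠ 0) :
    IsKummerRep m (0 : Pic0 K F) (f ^ m) := by
  obtain ⟨D, hD, hdeg⟩ := HasPrincipalDivisors.exists_divisor (K := K) f hf
  refine ⟨pow_ne_zero _ hf, ⟨D, hdeg⟩, ?_, fun P => ?_⟩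
  · rw [mk_eq_zero_iff]
    exact ⟨f, hf, hD⟩
  · show (m : ℤ) * D P = P.ord (f ^ m)
    rw [hD P, ← zpow_natCast, P.ord_zpow]

end Gen

/-! ### The subgroup `K_m` -/

section Km

variable {L : Type} [Field L] [Algebra ℚ L] [IsAlgClosed L] [Algebra.IsAlgebraic ℚ L]
  {A : ValuationSubring L}
  {k : Type} [Field k] {π : A →+* k} [IsAlgClosed k]
variable {M q : ℕ} [NeZero M] [NeZero q] [Fact q.Prime] [CharP k q]
variable {hdeg : finrankAlong L (heckeAlphaBar L M q) = q + 1} {hq : q.Prime} {hqM : ¬ q ∣ M}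
variable {hrk : ∀ x ∈ maximalIdeal A, ∀ c : A, c ≠ 0 → ∃ j : ℕ, c ∣ x ^ j}
  {hπ : Function.Surjective π}
variable (H : ResidueFacts A π M q hdeg hq hqM hrk hπ) (hA : A.LiesOverPrime q)

/-- `OneRed` of `S34x/Inst/StepsAbs` at the concrete setup is `UnitOne` -/
theorem oneRed_iff_unitOne {z : FL L (M * q)} :
    StepsAbs.OneRed (redSetupInfty H hA) (redSetupZero H hA) rfl z ↔
      UnitOne (redSetup2 H hA) z := Iff.rfl

/-- **`K_m`**: the classes with a Kummer function of exponent `m` which is a unit of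
`O_∞ ⊓ O_0` with reduction `(1, 1)`. -/
def Km (m : ℕ) : AddSubgroup (Pic0 L (FL L (M * q))) where
  carrier := {x | ∃ w : FL L (M * q), IsKummerRep m x w ∧ UnitOne (redSetup2 H hA) w}
  zero_mem' := ⟨1, isKummerRep_zero_one m, unitOne_one⟩
  add_mem' := by
    rintro x y ⟨w, hw, hw1⟩ ⟨w', hw', hw1'⟩
    exact ⟨w * w', hw.mul hw', hw1.mul hw1'⟩
  neg_mem' := by
    rintro x ⟨w, hw, hw1⟩
    exact ⟨w⁻¹, hw.inv, hw1.inv⟩

variable {H hA}

theorem mem_Km_iff {m : ℕ} {x : Pic0 L (FL L (M * q))} :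
    x ∈ Km H hA m ↔
      ∃ w : FL L (M * q), IsKummerRep m x w ∧ UnitOne (redSetup2 H hA) w := Iff.rfl

/-- the classes of `K_m` are killed by `m` -/
theorem zsmul_eq_zero_of_mem_Km {m : ℕ} {x : Pic0 L (FL L (M * q))} (hx : x ∈ Km H hA m) :
    (m : ℤ) • x = 0 := by
  obtain ⟨w, hw, -⟩ := hx
  exact hw.zsmul_eq_zero

/-- the data `(w, D)` attached to a class of `K_m` (the inputs of `Lattice2.TwistFam.ofDivisor`) -/
theorem exists_data_of_mem_Km {m : ℕ} {x : Pic0 L (FL L (M * q))} (hx : x ∈ Km H hA m) :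
    ∃ (w : FL L (M * q)) (D : Divisor L (FL L (M * q))), w ≠ 0 ∧
      ∃ hO : w ∈ (twoVal (valInfty A π M q hrk hπ hqM)
        (valZero A π M q hdeg hq hqM hrk hπ)).O,
      w⁻¹ ∈ (twoVal (valInfty A π M q hrk hπ hqM) (valZero A π M q hdeg hq hqM hrk hπ)).O ∧
      (redSetup2 H hA).res ⟨w, hO⟩ = 1 ∧
      (∀ v : Place L (FL L (M * q)), (m : ℤ) * D v = v.ord w) ∧
      ∃ hD : D ∈ Divisor.degZero (K := L) (F := FL L (M * q)), Pic0.mk ⟨D, hD⟩ = x := by
  obtain ⟨w, ⟨hw0, D, hDx, hD⟩, hO, hiO, h1⟩ := hx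
  exact ⟨w, (D : Divisor L (FL L (M * q))), hw0, hO, hiO, h1, hD, D.2, hDx⟩

/-- **(i) of `QOrd` for `W := K_m`, ANY exponent `m > 0`**: for `x` of `m`-torsion and `τ` in the
inertia group of `A`, `τ x - x ∈ K_m`. -/
theorem smul_sub_mem_Km {m : ℕ} (hm : 0 < m) {τ : L ≃ₐ[ℚ] L}
    (hτ : τ ∈ A.inertiaSubgroupIn ℚ) {x : Pic0 L (FL L (M * q))} (hx : (m : ℤ) • x = 0) :
    τ • x - x ∈ Km H hA m := by
  obtain ⟨u, hu⟩ := exists_isKummerRep hx
  obtain ⟨f, hf, hred⟩ := FinalStepsN.hN H hA hm _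
    (div_ne_zero ((smul_ne_zero_iff_ne _).mpr hu.ne_zero) hu.ne_zero)
    (FinalStepsI.hI H hA τ hτ u hu.ne_zero)
  refine ⟨_, ?_, hred⟩
  have h1 : IsKummerRep m (τ • x - x)
      (arithmeticGalois (modularFunctionFieldFull (M * q)) τ • u / u) := by
    rw [galois_smul_pic0_def]
    exact (hu.smul _).div hu
  have h2 := h1.mul (isKummerRep_zero_pow (K := L) m hf)
  rwa [add_zero] at h2

/-- `K_m` is stable under the inertia group -/
theorem smul_mem_Km {m : ℕ} (hm : 0 < m) {τ : L ≃ₐ[ℚ] L}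
    (hτ : τ ∈ A.inertiaSubgroupIn ℚ) {x : Pic0 L (FL L (M * q))} (hx : x ∈ Km H hA m) :
    τ • x ∈ Km H hA m := by
  have h := (Km H hA m).add_mem (smul_sub_mem_Km hm hτ (zsmul_eq_zero_of_mem_Km hx)) hx
  rwa [sub_add_cancel] at h

end Km

/-! ### The instance over `ℚ̄` -/

section OverQbar

open Fermat.Agent.Gateway.S31Red Fermat.Agent.Gateway.Descent

local notation "Qb" => AlgebraicClosure ℚ

/-- `[F_{Mq} : α F_M] = q + 1` over `ℚ̄` -/
theorem hdegQb (M₀ q : ℕ) [NeZero M₀] [NeZero q] (hq : q.Prime) (hqM : ¬ q ∣ M₀) :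
    finrankAlong Qb (heckeAlphaBar Qb M₀ q) = q + 1 :=
  HeckeSq.finrank_mul_prime M₀ q hq hqM

/-- **`K_m` at the level `M₀ q` over `ℚ̄`**, for a valuation subring `A` of `ℚ̄` over `q`. -/
def KmQb (M₀ q : ℕ) [NeZero M₀] [NeZero q] (hq : q.Prime) (hqM : ¬ q ∣ M₀)
    (A : ValuationSubring Qb) (hA : A.LiesOverPrime q) (m : ℕ) :
    AddSubgroup (Pic0 Qb (FL Qb (M₀ * q))) :=
  haveI : Algebra.IsAlgebraic ℚ Qb := AlgebraicClosure.isAlgebraic ℚ
  haveI : Fact q.Prime := ⟨hq⟩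
  haveI : IsAlgClosed (ResidueField A) := FinalBase.isAlgClosed_residueField A
  haveI : CharP (ResidueField A) q := FinalBase.charP_residueField A hA
  Km (ResidueInst.residueFacts A (residue A) M₀ q (hdegQb M₀ q hq hqM) hq hqM
    (FinalBase.rank_one A hq hA) (FinalBase.residue_surjective A)) hA m

variable {M₀ q : ℕ} [NeZero M₀] [NeZero q] {hq : q.Prime} {hqM : ¬ q ∣ M₀}
  {A : ValuationSubring Qb} {hA : A.LiesOverPrime q}

/-- the classes of `K_m` are killed by `m` -/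
theorem zsmul_eq_zero_of_mem_KmQb {m : ℕ} {x : Pic0 Qb (FL Qb (M₀ * q))}
    (hx : x ∈ KmQb M₀ q hq hqM A hA m) : (m : ℤ) • x = 0 := by
  haveI : Algebra.IsAlgebraic ℚ Qb := AlgebraicClosure.isAlgebraic ℚ
  haveI : Fact q.Prime := ⟨hq⟩
  haveI : IsAlgClosed (ResidueField A) := FinalBase.isAlgClosed_residueField A
  haveI : CharP (ResidueField A) q := FinalBase.charP_residueField A hA
  exact zsmul_eq_zero_of_mem_Km hx

/-- **(i)** over `ℚ̄` -/
theorem smul_sub_mem_KmQb {m : ℕ} (hm : 0 < m) {τ : Qb ≃ₐ[ℚ] Qb}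
    (hτ : τ ∈ A.inertiaSubgroupIn ℚ) {x : Pic0 Qb (FL Qb (M₀ * q))} (hx : (m : ℤ) • x = 0) :
    τ • x - x ∈ KmQb M₀ q hq hqM A hA m := by
  haveI : Algebra.IsAlgebraic ℚ Qb := AlgebraicClosure.isAlgebraic ℚ
  haveI : Fact q.Prime := ⟨hq⟩
  haveI : IsAlgClosed (ResidueField A) := FinalBase.isAlgClosed_residueField A
  haveI : CharP (ResidueField A) q := FinalBase.charP_residueField A hA
  exact smul_sub_mem_Km hm hτ hx

/-- `K_m` over `ℚ̄` is stable under the inertia group -/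
theorem smul_mem_KmQb {m : ℕ} (hm : 0 < m) {τ : Qb ≃ₐ[ℚ] Qb}
    (hτ : τ ∈ A.inertiaSubgroupIn ℚ) {x : Pic0 Qb (FL Qb (M₀ * q))}
    (hx : x ∈ KmQb M₀ q hq hqM A hA m) : τ • x ∈ KmQb M₀ q hq hqM A hA m := by
  haveI : Algebra.IsAlgebraic ℚ Qb := AlgebraicClosure.isAlgebraic ℚ
  haveI : Fact q.Prime := ⟨hq⟩
  haveI : IsAlgClosed (ResidueField A) := FinalBase.isAlgClosed_residueField A
  haveI : CharP (ResidueField A) q := FinalBase.charP_residueField A hA
  exact smul_mem_Km hm hτ hx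

/-- **`K_m` inside the `m`-torsion `JTors (M₀ q) m`** -/
def KmTors (M₀ q : ℕ) [NeZero M₀] [NeZero q] (hq : q.Prime) (hqM : ¬ q ∣ M₀)
    (A : ValuationSubring Qb) (hA : A.LiesOverPrime q) (m : ℕ) :
    AddSubgroup (JTors (M₀ * q) m) :=
  (KmQb M₀ q hq hqM A hA m).comap (Pic0.torsion Qb (modularFunctionFieldBar (M₀ * q)) m).subtype

theorem mem_KmTors_iff {m : ℕ} {x : JTors (M₀ * q) m} :
    x ∈ KmTors M₀ q hq hqM A hA m ↔ (x : JZero (M₀ * q)) ∈ KmQb M₀ q hq hqM A hA m := Iff.rfl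

/-- **(i) in the vocabulary of the consumer** (`Consumer.Ord.OrdPts`, first conjunct, with
`X1 := KmTors`): `galTors τ x - x ∈ K_m` for every `τ` in the inertia group and every
`x ∈ J₀(M₀ q)[m]`. -/
theorem galTors_sub_mem_KmTors {m : ℕ} (hm : 0 < m) :
    ∀ τ ∈ (A.inertiaSubgroupIn ℚ : Set (Qb ≃ₐ[ℚ] Qb)), ∀ x : JTors (M₀ * q) m,
      galTors (M₀ * q) m τ x - x ∈ KmTors M₀ q hq hqM A hA m := by
  intro τ hτ x
  rw [mem_KmTors_iff, AddSubgroup.coe_sub, coe_galTors_apply]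
  exact smul_sub_mem_KmQb hm hτ (Pic0.mem_torsion.mp x.2)

/-- `KmTors` is stable under the inertia group -/
theorem galTors_mem_KmTors {m : ℕ} (hm : 0 < m) {τ : Qb ≃ₐ[ℚ] Qb}
    (hτ : τ ∈ A.inertiaSubgroupIn ℚ) {x : JTors (M₀ * q) m}
    (hx : x ∈ KmTors M₀ q hq hqM A hA m) :
    galTors (M₀ * q) m τ x ∈ KmTors M₀ q hq hqM A hA m := by
  rw [mem_KmTors_iff, coe_galTors_apply]
  exact smul_mem_KmQb hm hτ hx

end OverQbar

end Fermat.Agent.S33x.KummerPn
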