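import Mathlib

/-!
# S33 study, LEMMA (CP), core (c) (helper41): a connected, unramified coalgebra of functions has no
`p`-torsion points

Let `W` be a commutative ring in which the odd prime `p` is a non-zero-divisor and which is
`p`-adically separated (e.g. a discrete valuation ring with uniformiser `p`: the ring of integers of
an UNRAMIFIED extension).  Let `H` be a `W`-submodule of the functions `X → W` on an additive
group `X` which is

* *co-closed* : for `f ∈ H` the function `(s, t) ↦ f (s + t)` is a `W`-linear combination of products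
  `g s * h t` with `g, h ∈ H` (this is the shape of `S19x/FF/FunModel.hΔ`);
* *connected* : `f x - f 0 ∈ p W` for all `f ∈ H`, `x : X`.

Then every `f ∈ H` takes the same value at `0` and at every `x` with `p • x = 0`
(`eq_of_coClosed_of_connected`): a connected Hopf order all of whose points are rational over an
unramified base has no `p`-torsion points.  This is the classical "torsion of a formal group has
valuation `≤ 1 / (p - 1)`" in Hopf form, with a proof by finite differences (Gregory–Newton):
no formal groups, no Oort–Tate, no Raynaud.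

Proof.  Let `I` be the ideal `{f x - f 0 : f ∈ H}`.  The forward difference `Δ_[x]` maps `H` into
`I • H` (co-closedness), hence `(fwdDiff x)^[k] f 0 ∈ I ^ k`.  The Gregory–Newton formula at `p • x = 0`
gives `p (f x - f 0) = - ∑_{2 ≤ k ≤ p} (p choose k) (fwdDiff x)^[k] f 0 ∈ p I ^ 2` (as `I ⊆ p W` and
`p ≥ 3`), so `I ⊆ I ^ 2`, hence `I ⊆ ⋂ I ^ n ⊆ ⋂ p ^ n W = 0`.
-/

set_option autoImplicit false
set_option linter.unusedSectionVars false

namespace Fermat.Agent.S33x.CPCore

open Finset fwdDiff

variable {W : Type*} [CommRing W] {X : Type*} [AddCommGroup X]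

/-- a module of functions is *co-closed* if `(s, t) ↦ f (s + t)` is a linear combination of
products `g s * h t` of functions of the module. -/
def CoClosed (H : Submodule W (X → W)) : Prop :=
  ∀ f ∈ H, (fun st : X × X => f (st.1 + st.2)) ∈ Submodule.span W
    {F : X × X → W | ∃ g ∈ H, ∃ h ∈ H, F = fun st => g st.1 * h st.2}

/-- the linear form `f ↦ f x - f 0`. -/
def evalDiff (x : X) : (X → W) →ₗ[W] W :=
  LinearMap.proj (R := W) (φ := fun _ : X => W) x - LinearMap.proj (R := W) (φ := fun _ : X => W) 0

@[simp] theorem evalDiff_apply (x : X) (f : X → W) : evalDiff x f = f x - f 0 := rfl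

/-- the ideal of the differences `f x - f 0`, `f ∈ H`. -/
def diffIdeal (H : Submodule W (X → W)) (x : X) : Ideal W := Submodule.map (evalDiff x) H

theorem evalDiff_mem_diffIdeal {H : Submodule W (X → W)} (x : X) {f : X → W} (hf : f ∈ H) :
    f x - f 0 ∈ diffIdeal H x := ⟨f, hf, rfl⟩

/-- the linear map `F ↦ (t ↦ F (t, x) - F (t, 0))`. -/
def partialDiff (x : X) : (X × X → W) →ₗ[W] (X → W) where
  toFun F := fun t => F (t, x) - F (t, 0)
  map_add' F G := by
    funext t
    simp only [Pi.add_apply]
    ring
  map_smul' c F := by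
    funext t
    simp only [Pi.smul_apply, smul_eq_mul, RingHom.id_apply]
    ring

/-- **the forward difference maps a co-closed module `H` into `I • H`.** -/
theorem fwdDiff_mem {H : Submodule W (X → W)} (hΔ : CoClosed H) (x : X) {f : X → W}
    (hf : f ∈ H) : Δ_[x] f ∈ diffIdeal H x • H := by
  have h1 : Δ_[x] f = partialDiff x (fun st : X × X => f (st.1 + st.2)) := by
    funext t
    simp [partialDiff, fwdDiff]
  rw [h1]
  have h2 : Submodule.span W {F : X × X → W | ∃ g ∈ H, ∃ h ∈ H, F = fun st => g st.1 * h st.2} ≤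
      Submodule.comap (partialDiff x) (diffIdeal H x • H) := by
    rw [Submodule.span_le]
    rintro F ⟨g, hg, h, hh, rfl⟩
    rw [SetLike.mem_coe, Submodule.mem_comap]
    have h3 : partialDiff x (fun st : X × X => g st.1 * h st.2) = (h x - h 0) • g := by
      funext t
      simp only [partialDiff, LinearMap.coe_mk, AddHom.coe_mk, Pi.smul_apply, smul_eq_mul]
      ring
    rw [h3]
    exact Submodule.smul_mem_smul (evalDiff_mem_diffIdeal x hh) hg
  exact h2 (hΔ f hf)

/-- the iterated forward difference maps `J • H` into `(I ^ k * J) • H`. -/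
theorem fwdDiff_iter_mem {H : Submodule W (X → W)} (hΔ : CoClosed H) (x : X) (k : ℕ) :
    ∀ (J : Ideal W) {f : X → W}, f ∈ J • H → (fwdDiff x)^[k] f ∈ (diffIdeal H x ^ k * J) • H := by
  induction k with
  | zero =>
    intro J f hf
    simpa using hf
  | succ k ih =>
    intro J f hf
    rw [Function.iterate_succ_apply]
    have h1 : Δ_[x] f ∈ (diffIdeal H x * J) • H := by
      refine Submodule.smul_induction_on hf (fun a ha g hg => ?_) (fun g₁ g₂ h₁ h₂ => ?_)
      · rw [fwdDiff_const_smul, mul_comm, Submodule.mul_smul]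
        exact Submodule.smul_mem_smul ha (fwdDiff_mem hΔ x hg)
      · rw [fwdDiff_add]
        exact add_mem h₁ h₂
    have h2 := ih (diffIdeal H x * J) h1
    rwa [← mul_assoc, ← pow_succ] at h2

/-- the value at `0` of a function of `J • H` lies in `J`. -/
theorem apply_mem_of_mem_smul {H : Submodule W (X → W)} (J : Ideal W) {f : X → W}
    (hf : f ∈ J • H) (t : X) : f t ∈ J := by
  refine Submodule.smul_induction_on hf (fun a ha g _ => ?_) (fun g₁ g₂ h₁ h₂ => ?_)
  · simp only [Pi.smul_apply, smul_eq_mul]
    exact J.mul_mem_right _ ha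
  · exact add_mem h₁ h₂

/-- **the `k`-th finite difference of `f ∈ H` at `0` lies in `I ^ k`.** -/
theorem fwdDiff_iter_apply_mem {H : Submodule W (X → W)} (hΔ : CoClosed H) (x : X) (k : ℕ)
    {f : X → W} (hf : f ∈ H) (t : X) : (fwdDiff x)^[k] f t ∈ diffIdeal H x ^ k := by
  have h1 : f ∈ (⊤ : Ideal W) • H := by rwa [Submodule.top_smul]
  have h2 := fwdDiff_iter_mem hΔ x k ⊤ h1
  rw [Ideal.mul_top] at h2
  exact apply_mem_of_mem_smul _ h2 t

/-- **LEMMA (CP), core**: a connected co-closed module of `W`-valued functions, `W` unramified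
(`p` regular, `W` `p`-adically separated, differences divisible by `p`), does not separate `0` from
a point of order `p` (`p` odd). -/
theorem eq_of_coClosed_of_connected {p : ℕ} (hp : p.Prime) (hp2 : p ≠ 2)
    (hreg : ∀ a : W, (p : W) * a = 0 → a = 0)
    (hsep : ∀ a : W, (∀ n : ℕ, (p : W) ^ n ∣ a) → a = 0)
    {H : Submodule W (X → W)} (hΔ : CoClosed H)
    {x : X} (hconn : ∀ f ∈ H, (p : W) ∣ f x - f 0) (hx : p • x = 0)
    {f : X → W} (hf : f ∈ H) : f x = f 0 := by
  set I : Ideal W := diffIdeal H x with hI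
  set J : Ideal W := Ideal.span {(p : W)} with hJ
  have hp3 : 3 ≤ p := by
    have := hp.two_le
    omega
  -- `I ⊆ p W`
  have hIJ : I ≤ J := by
    rintro a ⟨g, hg, rfl⟩
    exact Ideal.mem_span_singleton.mpr (hconn g hg)
  -- `I ⊆ I ^ 2`
  have hI2 : I ≤ I ^ 2 := by
    rintro a ⟨g, hg, rfl⟩
    show g x - g 0 ∈ I ^ 2
    have hd : ∀ k, (fwdDiff x)^[k] g 0 ∈ I ^ k := fun k => fwdDiff_iter_apply_mem hΔ x k hg 0
    have hN := shift_eq_sum_fwdDiff_iter x g p 0
    rw [hx, add_zero] at hN
    -- split off the terms `k = 0, 1` and `k = p`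
    have hsplit : ∑ k ∈ range (p + 1), p.choose k • (fwdDiff x)^[k] g 0 =
        g 0 + (p : W) * (g x - g 0) + ((∑ k ∈ Ico 2 p, p.choose k • (fwdDiff x)^[k] g 0) +
          (fwdDiff x)^[p] g 0) := by
      rw [Finset.range_eq_Ico, Finset.sum_Ico_succ_top (by omega : 0 ≤ p),
        Finset.sum_eq_sum_Ico_succ_bot (by omega : 0 < p),
        Finset.sum_eq_sum_Ico_succ_bot (by omega : 0 + 1 < p)]
      simp [fwdDiff, nsmul_eq_mul]
      ring
    rw [hsplit] at hN
    have hrest : (∑ k ∈ Ico 2 p, p.choose k • (fwdDiff x)^[k] g 0) + (fwdDiff x)^[p] g 0 ∈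
        J * I ^ 2 := by
      refine add_mem (sum_mem fun k hk => ?_) ?_
      · rw [Finset.mem_Ico] at hk
        obtain ⟨c, hc⟩ := hp.dvd_choose_self (by omega : k ≠ 0) hk.2
        rw [nsmul_eq_mul, hc]
        push_cast
        rw [mul_assoc]
        exact Ideal.mul_mem_mul (Ideal.mem_span_singleton_self _)
          ((I ^ 2).mul_mem_left _ (Ideal.pow_le_pow_right hk.1 (hd k)))
      · have h1 : I ^ p = I ^ (p - 2) * I ^ 2 := by
          rw [← pow_add]
          congr 1
          omega
        have h2 : I ^ (p - 2) ≤ J :=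
          (Ideal.pow_right_mono hIJ _).trans (Ideal.pow_le_self (by omega))
        have h3 := hd p
        rw [h1] at h3
        exact Ideal.mul_mono_left h2 h3
    obtain ⟨b, hb, hbe⟩ := Ideal.mem_span_singleton_mul.mp hrest
    have h4 : (p : W) * (g x - g 0 + b) = 0 := by
      rw [mul_add, hbe]
      linear_combination -hN
    have h5 := hreg _ h4
    have h6 : g x - g 0 = -b := by linear_combination h5
    rw [h6]
    exact (I ^ 2).neg_mem hb
  -- `I ⊆ I ^ n` for all `n ≥ 1`
  have hIn : ∀ n : ℕ, I ≤ I ^ (n + 1) := by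
    intro n
    induction n with
    | zero => simp
    | succ n ih =>
      calc I ≤ I ^ 2 := hI2
        _ = I * I := pow_two I
        _ ≤ I * I ^ (n + 1) := Ideal.mul_mono_right ih
        _ = I ^ (n + 1 + 1) := (pow_succ' I (n + 1)).symm
  have hmem : f x - f 0 ∈ I := evalDiff_mem_diffIdeal x hf
  have h0 : f x - f 0 = 0 := by
    apply hsep
    intro n
    rcases Nat.eq_zero_or_pos n with rfl | hn
    · simp
    · have h1 : f x - f 0 ∈ I ^ (n - 1 + 1) := hIn (n - 1) hmem
      have h2 : I ^ (n - 1 + 1) ≤ J ^ n := by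
        rw [Nat.sub_add_cancel hn]
        exact Ideal.pow_right_mono hIJ n
      have h3 := h2 h1
      rw [hJ, Ideal.span_singleton_pow, Ideal.mem_span_singleton] at h3
      exact h3
  exact sub_eq_zero.mp h0

end Fermat.Agent.S33x.CPCore
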