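import Mathlib
import Fermat.Agent.S56x.Flat.InertiaField
import Fermat.Agent.S33x.CPCore

/-!
# S33 study, LEMMA (CP), full form (parts (a)+(b) of helper29's note, around helper41's `CPCore`)

`P` a valuation subring of `ℚ̄` over the odd prime `ℓ`, `I` its inertia group, `O = inertiaInt P`
(a DVR with uniformiser `ℓ`).  `X` a finite abelian group with an action `act` of `G_ℚ`.
`M` an `O`-lattice of `I`-equivariant `P`-valued functions `X → ℚ̄`, free over `O` on a `ℚ̄`-basis `e`
of all functions, closed under comultiplication, containing `ℓ ^ k • W` for every `I`-equivariant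
`P`-valued `W` (conductor).  Let `A ≤ B` be subgroups of `X` with `A` stable under `I` and `I` acting
trivially on `B / A`, and suppose `M` is *connected along `B / A`*: every `g ∈ M` which is
`A`-invariant on `B` satisfies `g y - g 0 ∈ 𝔪_P` for `y ∈ B`.
Then `B / A` has no element of order `ℓ`: `b ∈ B`, `ℓ • b ∈ A` imply `b ∈ A`
(`mem_of_trivial_quotient`).
-/

set_option autoImplicit false
set_option linter.unusedSectionVars false
set_option linter.unusedVariables false
set_option linter.style.haveILetI false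

noncomputable section

namespace Fermat.Agent.S33x.CPFull

open Fermat.Agent.S56x.Flat.InertiaField

local notation "Qbar" => AlgebraicClosure ℚ
local notation "Γℚ" => (AlgebraicClosure ℚ ≃ₐ[ℚ] AlgebraicClosure ℚ)

/-! ### A retraction onto a saturated submodule over a PID -/

/-- Over a PID, a finite module `M` retracts onto its intersection with a saturated
submodule `L`. -/
theorem exists_retraction {O : Type*} [CommRing O] [IsDomain O] [IsPrincipalIdealRing O]
    {V : Type*} [AddCommGroup V] [Module O V] (M : Submodule O V) [Module.Finite O M]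
    (L : Submodule O V) (hsat : ∀ c : O, c ≠ 0 → ∀ g : V, c • g ∈ L → g ∈ L) :
    ∃ ρ : M →ₗ[O] M, (∀ g : M, (ρ g : V) ∈ L) ∧ ∀ g : M, (g : V) ∈ L → ρ g = g := by
  classical
  set N : Submodule O M := L.comap M.subtype with hN
  haveI : Module.IsTorsionFree O (M ⧸ N) := by
    refine ⟨fun r hr => ?_⟩
    intro x y hxy
    induction x using Submodule.Quotient.induction_on with
    | H a =>
    induction y using Submodule.Quotient.induction_on with
    | H b =>
    have h1 : N.mkQ (r • (a - b)) = 0 := by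
      have : (r • (Submodule.Quotient.mk a : M ⧸ N)) = r • (Submodule.Quotient.mk b : M ⧸ N) :=
        hxy
      rw [map_smul, map_sub]
      show r • ((Submodule.Quotient.mk a : M ⧸ N) - Submodule.Quotient.mk b) = 0
      rw [smul_sub, this, sub_self]
    have h2 : r • (a - b) ∈ N := by
      rwa [Submodule.mkQ_apply, Submodule.Quotient.mk_eq_zero] at h1
    have h3 : (a - b : M) ∈ N := by
      rw [hN, Submodule.mem_comap] at h2 ⊢
      have hr0 : r ≠ 0 := hr.ne_zero
      refine hsat r hr0 _ ?_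
      simpa using h2
    exact (Submodule.Quotient.eq N).mpr h3
  haveI : Module.Free O (M ⧸ N) := Module.free_of_finite_type_torsion_free'
  obtain ⟨s, hs⟩ := Module.projective_lifting_property N.mkQ LinearMap.id
    (Submodule.mkQ_surjective N)
  set ρ : M →ₗ[O] M := LinearMap.id - s ∘ₗ N.mkQ with hρ
  refine ⟨ρ, fun g => ?_, fun g hg => ?_⟩
  · have h1 : N.mkQ (ρ g) = 0 := by
      rw [hρ, LinearMap.sub_apply, map_sub, LinearMap.id_apply, LinearMap.comp_apply]
      have := LinearMap.congr_fun hs (N.mkQ g)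
      rw [LinearMap.comp_apply, LinearMap.id_apply] at this
      rw [this, sub_self]
    rw [Submodule.mkQ_apply, Submodule.Quotient.mk_eq_zero] at h1
    exact h1
  · have h1 : N.mkQ g = 0 := by
      rw [Submodule.mkQ_apply, Submodule.Quotient.mk_eq_zero]
      exact hg
    rw [hρ, LinearMap.sub_apply, LinearMap.id_apply, LinearMap.comp_apply, h1, map_zero, sub_zero]

/-! ### The concrete setting -/

section Main

variable {ℓ : ℕ} (P : ValuationSubring Qbar)
variable {X : Type} [AddCommGroup X] (act : Γℚ → X → X)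

/-- the functions which are `A`-invariant on `B`. -/
def invOn (A B : AddSubgroup X) : Submodule Qbar (X → Qbar) where
  carrier := {g | ∀ y ∈ B, ∀ a ∈ A, g (y + a) = g y}
  add_mem' := fun {g h} hg hh y hy a ha => by
    simp only [Pi.add_apply, hg y hy a ha, hh y hy a ha]
  zero_mem' := fun _ _ _ _ => rfl
  smul_mem' := fun c g hg y hy a ha => by
    simp only [Pi.smul_apply, hg y hy a ha]

theorem mem_invOn {A B : AddSubgroup X} {g : X → Qbar} :
    g ∈ invOn A B ↔ ∀ y ∈ B, ∀ a ∈ A, g (y + a) = g y := Iff.rfl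

/-- the same, as a submodule over `inertiaInt P`. -/
def invOnO (A B : AddSubgroup X) : Submodule (inertiaInt P) (X → Qbar) :=
  (invOn A B).restrictScalars (inertiaInt P)

theorem mem_invOnO {A B : AddSubgroup X} {g : X → Qbar} :
    g ∈ invOnO P A B ↔ ∀ y ∈ B, ∀ a ∈ A, g (y + a) = g y := Iff.rfl

theorem invOnO_saturated (A B : AddSubgroup X) (c : inertiaInt P) (hc : c ≠ 0) (g : X → Qbar)
    (h : c • g ∈ invOnO P A B) : g ∈ invOnO P A B := by
  intro y hy a ha
  have h1 := h y hy a ha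
  have hc' : (c : Qbar) ≠ 0 := fun h0 => hc (Subtype.ext h0)
  have h2 : (c : Qbar) * g (y + a) = (c : Qbar) * g y := h1
  exact mul_left_cancel₀ hc' h2

/-! #### Inertia-stability of the cosets of `A` inside `B` -/

variable {act}

section Cosets

variable (h1 : ∀ x, act 1 x = x)
  (hmul : ∀ σ ∈ P.inertiaSubgroupIn ℚ, ∀ τ ∈ P.inertiaSubgroupIn ℚ, ∀ x,
    act (σ * τ) x = act σ (act τ x))
  (hadd : ∀ σ ∈ P.inertiaSubgroupIn ℚ, ∀ x y, act σ (x + y) = act σ x + act σ y)
  {A B : AddSubgroup X} (hAB : A ≤ B)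
  (hA : ∀ τ ∈ P.inertiaSubgroupIn ℚ, ∀ a ∈ A, act τ a ∈ A)
  (hB : ∀ τ ∈ P.inertiaSubgroupIn ℚ, ∀ y ∈ B, act τ y - y ∈ A)

include hadd in
theorem act_sub {σ : Γℚ} (hσ : σ ∈ P.inertiaSubgroupIn ℚ) (x y : X) :
    act σ (x - y) = act σ x - act σ y := by
  have h := hadd σ hσ (x - y) y
  rw [sub_add_cancel] at h
  rw [h, add_sub_cancel_right]

include h1 hmul in
theorem act_inv_act {σ : Γℚ} (hσ : σ ∈ P.inertiaSubgroupIn ℚ) (x : X) :
    act σ⁻¹ (act σ x) = x := by
  rw [← hmul σ⁻¹ (inv_mem hσ) σ hσ, inv_mul_cancel, h1]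

include hadd hA hB in
theorem sub_mem_of_sub_mem {τ : Γℚ} (hτ : τ ∈ P.inertiaSubgroupIn ℚ) {y : X} (hy : y ∈ B)
    {x : X} (hx : x - y ∈ A) : act τ x - y ∈ A := by
  have h2 : act τ x - y = act τ (x - y) + (act τ y - y) := by
    rw [act_sub P hadd hτ]
    abel
  rw [h2]
  exact A.add_mem (hA τ hτ _ hx) (hB τ hτ y hy)

include h1 hmul hadd hA hB in
theorem sub_mem_iff {τ : Γℚ} (hτ : τ ∈ P.inertiaSubgroupIn ℚ) {y : X} (hy : y ∈ B) (x : X) :
    act τ x - y ∈ A ↔ x - y ∈ A := by
  refine ⟨fun h => ?_, fun h => sub_mem_of_sub_mem P hadd hA hB hτ hy h⟩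
  have h2 := sub_mem_of_sub_mem P hadd hA hB (inv_mem hτ) hy h
  rwa [act_inv_act P h1 hmul hτ] at h2

include hAB hB in
theorem act_mem_B {τ : Γℚ} (hτ : τ ∈ P.inertiaSubgroupIn ℚ) {y : X} (hy : y ∈ B) :
    act τ y ∈ B := by
  have h2 : act τ y = (act τ y - y) + y := by abel
  rw [h2]
  exact B.add_mem (hAB (hB τ hτ y hy)) hy

include h1 hmul hAB hB in
theorem act_mem_B_iff {τ : Γℚ} (hτ : τ ∈ P.inertiaSubgroupIn ℚ) (x : X) :
    act τ x ∈ B ↔ x ∈ B := by
  refine ⟨fun h => ?_, fun h => act_mem_B P hAB hB hτ h⟩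
  have h2 := act_mem_B P hAB hB (inv_mem hτ) h
  rwa [act_inv_act P h1 hmul hτ] at h2

end Cosets

/-! #### The order -/

/-- An `I`-equivariant Hopf order of functions on `X`, free over `inertiaInt P` on a `ℚ̄`-basis of all
functions, with conductor a power of `ℓ`. -/
structure HopfOrder (ℓ : ℕ) (P : ValuationSubring Qbar) {X : Type} [AddCommGroup X]
    (act : Γℚ → X → X) where
  /-- the order -/
  M : Submodule (inertiaInt P) (X → Qbar)
  equivariant : ∀ u ∈ M, ∀ τ ∈ P.inertiaSubgroupIn ℚ, ∀ x, τ (u x) = u (act τ x)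
  integral : ∀ u ∈ M, ∀ x, u x ∈ P
  conductor : ∃ k : ℕ, ∀ W : X → Qbar,
    (∀ τ ∈ P.inertiaSubgroupIn ℚ, ∀ x, τ (W x) = W (act τ x)) → (∀ x, W x ∈ P) →
      ((ℓ : Qbar) ^ k) • W ∈ M
  comul : ∀ f ∈ M, ∃ (m : ℕ) (g h : Fin m → X → Qbar), (∀ k, g k ∈ M) ∧ (∀ k, h k ∈ M) ∧
    ∀ s t, f (s + t) = ∑ k, g k s * h k t
  /-- the rank -/
  n : ℕ
  /-- the basis -/
  e : Fin n → X → Qbar
  e_mem : ∀ i, e i ∈ M
  e_li : LinearIndependent Qbar e
  e_span : Submodule.span Qbar (Set.range e) = ⊤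
  e_coeff : ∀ u ∈ M, ∃ c : Fin n → inertiaInt P, u = ∑ i, c i • e i

variable {P}

theorem HopfOrder.finite (H : HopfOrder ℓ P act) : Module.Finite (inertiaInt P) H.M := by
  classical
  refine Module.Finite.iff_fg.mpr ⟨Finset.univ.image H.e, le_antisymm ?_ ?_⟩
  · refine Submodule.span_le.mpr ?_
    intro u hu
    simp only [Finset.coe_image, Finset.coe_univ, Set.image_univ, Set.mem_range] at hu
    obtain ⟨i, rfl⟩ := hu
    exact H.e_mem i
  · intro u hu
    obtain ⟨c, rfl⟩ := H.e_coeff u hu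
    refine Submodule.sum_mem _ fun i _ => Submodule.smul_mem _ _ (Submodule.subset_span ?_)
    simp

/-- an `O`-linear endomorphism of the order extends to a `ℚ̄`-linear endomorphism of the space of
all functions. -/
theorem HopfOrder.exists_extension (H : HopfOrder ℓ P act) (ρ : H.M →ₗ[inertiaInt P] H.M) :
    ∃ ρK : (X → Qbar) →ₗ[Qbar] (X → Qbar), ∀ (u : X → Qbar) (hu : u ∈ H.M),
      ρK u = (ρ ⟨u, hu⟩ : X → Qbar) := by
  classical
  set b : Module.Basis (Fin H.n) Qbar (X → Qbar) :=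
    Module.Basis.mk H.e_li (by rw [H.e_span]) with hb
  set ρK : (X → Qbar) →ₗ[Qbar] (X → Qbar) :=
    b.constr Qbar (fun i => ((ρ ⟨H.e i, H.e_mem i⟩ : H.M) : X → Qbar)) with hρK
  have hbe : ∀ i, ρK (H.e i) = ((ρ ⟨H.e i, H.e_mem i⟩ : H.M) : X → Qbar) := by
    intro i
    have h1 : H.e i = b i := by rw [hb, Module.Basis.mk_apply]
    conv_lhs => rw [h1]
    rw [hρK, Module.Basis.constr_basis]
  refine ⟨ρK, fun u hu => ?_⟩
  obtain ⟨c, hc⟩ := H.e_coeff u hu
  have h2 : (⟨u, hu⟩ : H.M) = ∑ i, c i • (⟨H.e i, H.e_mem i⟩ : H.M) := by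
    apply Subtype.ext
    rw [Submodule.coe_sum]
    exact hc
  rw [h2, map_sum, Submodule.coe_sum]
  conv_lhs => rw [hc]
  rw [map_sum]
  refine Finset.sum_congr rfl fun i _ => ?_
  have hR : ((ρ (c i • (⟨H.e i, H.e_mem i⟩ : H.M)) : H.M) : X → Qbar) =
      (c i : Qbar) • ((ρ ⟨H.e i, H.e_mem i⟩ : H.M) : X → Qbar) := by
    rw [LinearMap.map_smul]
    rfl
  have hL : ρK (c i • H.e i) = (c i : Qbar) • ρK (H.e i) := by
    show ρK ((c i : Qbar) • H.e i) = _
    rw [LinearMap.map_smul]
  rw [hL, hR, hbe]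

/-- the indicator function of the coset `z + A`. -/
def cosetInd (A : AddSubgroup X) (z : X) : X → Qbar := by
  classical
  exact fun x => if x - z ∈ A then 1 else 0

theorem cosetInd_apply (A : AddSubgroup X) (z x : X) [Decidable (x - z ∈ A)] :
    cosetInd A z x = if x - z ∈ A then 1 else 0 := by
  unfold cosetInd
  split_ifs <;> rfl

theorem cosetInd_of_mem {A : AddSubgroup X} {z x : X} (h : x - z ∈ A) : cosetInd A z x = 1 := by
  classical
  rw [cosetInd_apply, if_pos h]

theorem cosetInd_of_notMem {A : AddSubgroup X} {z x : X} (h : x - z ∉ A) :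
    cosetInd A z x = 0 := by
  classical
  rw [cosetInd_apply, if_neg h]

theorem cosetInd_mem_invOn {A B : AddSubgroup X} (z : X) : cosetInd A z ∈ invOn A B := by
  classical
  intro y hy a ha
  have : y + a - z ∈ A ↔ y - z ∈ A := by
    have h2 : y + a - z = (y - z) + a := by abel
    rw [h2]
    exact ⟨fun h => by simpa using A.sub_mem h ha, fun h => A.add_mem h ha⟩
  rw [cosetInd_apply, cosetInd_apply]
  simp only [this]

/-- cut off a function on `B`. -/
def offB (B : AddSubgroup X) : (X → Qbar) →ₗ[Qbar] (X → Qbar) := by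
  classical
  exact
    { toFun := fun u x => if x ∈ B then 0 else u x
      map_add' := fun u v => by
        funext x
        by_cases h : x ∈ B <;> simp [h]
      map_smul' := fun c u => by
        funext x
        by_cases h : x ∈ B <;> simp [h] }

theorem offB_of_mem {B : AddSubgroup X} (u : X → Qbar) {x : X} (h : x ∈ B) : offB B u x = 0 := by
  classical
  show (if x ∈ B then 0 else u x) = 0
  rw [if_pos h]

theorem offB_of_notMem {B : AddSubgroup X} (u : X → Qbar) {x : X} (h : x ∉ B) :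
    offB B u x = u x := by
  classical
  show (if x ∈ B then 0 else u x) = u x
  rw [if_neg h]

theorem offB_mem_invOn {A B : AddSubgroup X} (hAB : A ≤ B) (u : X → Qbar) :
    offB B u ∈ invOn A B := by
  intro y hy a ha
  rw [offB_of_mem u hy, offB_of_mem u (B.add_mem hy (hAB ha))]

section Order

variable (hℓ : ℓ.Prime) (H : HopfOrder ℓ P act)
  (h1 : ∀ x, act 1 x = x)
  (hmul : ∀ σ ∈ P.inertiaSubgroupIn ℚ, ∀ τ ∈ P.inertiaSubgroupIn ℚ, ∀ x,
    act (σ * τ) x = act σ (act τ x))
  (hadd : ∀ σ ∈ P.inertiaSubgroupIn ℚ, ∀ x y, act σ (x + y) = act σ x + act σ y)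
  {A B : AddSubgroup X} (hAB : A ≤ B)
  (hA : ∀ τ ∈ P.inertiaSubgroupIn ℚ, ∀ a ∈ A, act τ a ∈ A)
  (hB : ∀ τ ∈ P.inertiaSubgroupIn ℚ, ∀ y ∈ B, act τ y - y ∈ A)

include hℓ in
theorem natCast_pow_ne_zero (k : ℕ) : ((ℓ : Qbar) ^ k) ≠ 0 :=
  pow_ne_zero _ (Nat.cast_ne_zero.mpr hℓ.ne_zero)

include hℓ in
theorem mem_span_of_scaled {g : X → Qbar} (k : ℕ) (hg : ((ℓ : Qbar) ^ k) • g ∈ H.M)
    (hg' : g ∈ invOn A B) :
    g ∈ Submodule.span Qbar {g : X → Qbar | g ∈ H.M ∧ g ∈ invOn A B} := by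
  have h0 := natCast_pow_ne_zero hℓ k
  have h2 : g = ((ℓ : Qbar) ^ k)⁻¹ • (((ℓ : Qbar) ^ k) • g) := by
    rw [smul_smul, inv_mul_cancel₀ h0, one_smul]
  rw [h2]
  exact Submodule.smul_mem _ _ (Submodule.subset_span ⟨hg, (invOn A B).smul_mem _ hg'⟩)

include h1 hmul hadd hA hB in
theorem cosetInd_equivariant {z : X} (hz : z ∈ B) {τ : Γℚ} (hτ : τ ∈ P.inertiaSubgroupIn ℚ)
    (x : X) : τ (cosetInd A z x) = cosetInd A z (act τ x) := by
  by_cases h : x - z ∈ A
  · rw [cosetInd_of_mem h, cosetInd_of_mem ((sub_mem_iff P h1 hmul hadd hA hB hτ hz x).mpr h),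
      map_one]
  · rw [cosetInd_of_notMem h,
      cosetInd_of_notMem (fun h' => h ((sub_mem_iff P h1 hmul hadd hA hB hτ hz x).mp h')),
      map_zero]

theorem cosetInd_integral (A : AddSubgroup X) (z x : X) : cosetInd A z x ∈ P := by
  by_cases h : x - z ∈ A
  · rw [cosetInd_of_mem h]
    exact P.one_mem
  · rw [cosetInd_of_notMem h]
    exact P.zero_mem

include h1 hmul hAB hB in
theorem offB_equivariant {u : X → Qbar} (hu : u ∈ H.M) {τ : Γℚ}
    (hτ : τ ∈ P.inertiaSubgroupIn ℚ) (x : X) : τ (offB B u x) = offB B u (act τ x) := by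
  by_cases h : x ∈ B
  · rw [offB_of_mem u h, offB_of_mem u ((act_mem_B_iff P h1 hmul hAB hB hτ x).mpr h), map_zero]
  · rw [offB_of_notMem u h,
      offB_of_notMem u (fun h' => h ((act_mem_B_iff P h1 hmul hAB hB hτ x).mp h'))]
    exact H.equivariant u hu τ hτ x

theorem offB_integral {u : X → Qbar} (hu : u ∈ H.M) (B : AddSubgroup X) (x : X) :
    offB B u x ∈ P := by
  by_cases h : x ∈ B
  · rw [offB_of_mem u h]
    exact P.zero_mem
  · rw [offB_of_notMem u h]
    exact H.integral u hu x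

include hℓ h1 hmul hadd hAB hA hB in
/-- the space of `A`-invariant functions on `B` is spanned by its intersection with the order. -/
theorem invOn_le_span [Finite X] :
    invOn A B ≤ Submodule.span Qbar {g : X → Qbar | g ∈ H.M ∧ g ∈ invOn A B} := by
  classical
  intro g hg
  obtain ⟨k, hk⟩ := H.conductor
  haveI : Fintype (X ⧸ A) := Fintype.ofFinite _
  -- the part off `B`
  have hoff : offB B g ∈ Submodule.span Qbar {g : X → Qbar | g ∈ H.M ∧ g ∈ invOn A B} := by
    have hgs : g ∈ Submodule.span Qbar (Set.range H.e) := by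
      rw [H.e_span]
      exact Submodule.mem_top
    obtain ⟨c, hc⟩ := Submodule.mem_span_range_iff_exists_fun Qbar |>.mp hgs
    rw [← hc, map_sum]
    refine Submodule.sum_mem _ fun i _ => ?_
    rw [map_smul]
    refine Submodule.smul_mem _ _ ?_
    refine mem_span_of_scaled hℓ H k ?_ (offB_mem_invOn hAB _)
    exact hk _ (fun τ hτ x => offB_equivariant H h1 hmul hAB hB (H.e_mem i) hτ x)
      (fun x => offB_integral H (H.e_mem i) B x)
  -- the part on `B`
  have hon : g - offB B g = ∑ q : X ⧸ A,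
      (if q.out ∈ B then g q.out else 0) • cosetInd A q.out := by
    funext x
    rw [Finset.sum_apply]
    simp only [Pi.smul_apply, smul_eq_mul, Pi.sub_apply]
    rw [Finset.sum_eq_single (QuotientAddGroup.mk x : X ⧸ A)]
    · obtain ⟨a, ha⟩ := QuotientAddGroup.mk_out_eq_add A x
      rw [ha]
      have h3 : x - (x + (a : X)) ∈ A := by
        have : x - (x + (a : X)) = -(a : X) := by abel
        rw [this]
        exact A.neg_mem a.2
      rw [cosetInd_of_mem h3, mul_one]
      by_cases hx : x ∈ B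
      · rw [if_pos (B.add_mem hx (hAB a.2)), offB_of_mem g hx, sub_zero]
        exact (hg x hx a a.2).symm
      · have hx' : x + (a : X) ∉ B := by
          intro h'
          apply hx
          have : x = (x + (a : X)) - (a : X) := by abel
          rw [this]
          exact B.sub_mem h' (hAB a.2)
        rw [if_neg hx', offB_of_notMem g hx, sub_self]
    · intro q _ hq
      have h3 : x - q.out ∉ A := by
        intro h'
        apply hq
        have h4 : (QuotientAddGroup.mk q.out : X ⧸ A) = QuotientAddGroup.mk x := by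
          rw [QuotientAddGroup.eq]
          have : -q.out + x = x - q.out := by abel
          rw [this]
          exact h'
        rw [← h4, QuotientAddGroup.out_eq']
      rw [cosetInd_of_notMem h3, mul_zero]
    · intro h'
      exact absurd (Finset.mem_univ _) h'
  have h5 : g = offB B g + (g - offB B g) := by abel
  rw [h5]
  refine Submodule.add_mem _ hoff ?_
  rw [hon]
  refine Submodule.sum_mem _ fun q _ => ?_
  by_cases hq : q.out ∈ B
  · rw [if_pos hq]
    refine Submodule.smul_mem _ _ ?_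
    refine mem_span_of_scaled hℓ H k ?_ (cosetInd_mem_invOn _)
    exact hk _ (fun τ hτ x => cosetInd_equivariant h1 hmul hadd hA hB hq hτ x)
      (fun x => cosetInd_integral A _ x)
  · rw [if_neg hq, zero_smul]
    exact Submodule.zero_mem _

include hℓ h1 hmul hadd hAB hA hB in
/-- the comultiplication of an `A`-invariant function of the order, restricted to `B × B`, is a sum
of products of `A`-invariant functions of the order (saturation argument). -/
theorem exists_comul_invOn [Finite X] (hP : P.LiesOverPrime ℓ) {f : X → Qbar} (hfM : f ∈ H.M)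
    (hf : f ∈ invOn A B) :
    ∃ (m : ℕ) (g h : Fin m → X → Qbar), (∀ k, g k ∈ H.M ∧ g k ∈ invOn A B) ∧
      (∀ k, h k ∈ H.M ∧ h k ∈ invOn A B) ∧
      ∀ s ∈ B, ∀ t ∈ B, f (s + t) = ∑ k, g k s * h k t := by
  classical
  haveI := isDiscreteValuationRing_inertiaInt P hℓ hP
  haveI := H.finite
  obtain ⟨ρ, hρL, hρid⟩ := exists_retraction H.M (invOnO P A B) (invOnO_saturated P A B)
  obtain ⟨ρK, hρK⟩ := H.exists_extension ρ
  have hfix' : ∀ u ∈ Submodule.span Qbar {g : X → Qbar | g ∈ H.M ∧ g ∈ invOn A B},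
      ρK u = u := by
    intro u hu'
    induction hu' using Submodule.span_induction with
    | mem v hv =>
      rw [hρK v hv.1, hρid ⟨v, hv.1⟩ hv.2]
    | zero => exact map_zero _
    | add v w _ _ hv hw => rw [map_add, hv, hw]
    | smul c v _ hv => rw [map_smul, hv]
  have hfix : ∀ u ∈ invOn A B, ρK u = u := fun u hu =>
    hfix' u (invOn_le_span hℓ H h1 hmul hadd hAB hA hB hu)
  obtain ⟨m, g, h, hgM, hhM, hgh⟩ := H.comul f hfM
  have hmem : ∀ u (hu : u ∈ H.M), ρK u ∈ H.M ∧ ρK u ∈ invOn A B := by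
    intro u hu
    rw [hρK u hu]
    exact ⟨(ρ ⟨u, hu⟩).2, hρL _⟩
  have step1 : ∀ t ∈ B, ∀ s, f (s + t) = ∑ k, ρK (g k) s * h k t := by
    intro t ht s
    have hF : (fun s => f (s + t)) ∈ invOn A B := by
      intro y hy a ha
      show f (y + a + t) = f (y + t)
      have h2 : y + a + t = (y + t) + a := by abel
      rw [h2]
      exact hf (y + t) (B.add_mem hy ht) a ha
    have hFe : (fun s => f (s + t)) = ∑ k, h k t • g k := by
      funext s
      rw [Finset.sum_apply, hgh s t]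
      refine Finset.sum_congr rfl fun k _ => ?_
      rw [Pi.smul_apply, smul_eq_mul, mul_comm]
    have h3 := hfix _ hF
    rw [hFe, map_sum] at h3
    have h4 := congrFun h3 s
    rw [Finset.sum_apply, Finset.sum_apply] at h4
    rw [hgh s t]
    rw [show (∑ k, g k s * h k t) = ∑ k, (h k t • g k) s from
      Finset.sum_congr rfl fun k _ => by rw [Pi.smul_apply, smul_eq_mul, mul_comm]]
    rw [← h4]
    refine Finset.sum_congr rfl fun k _ => ?_
    rw [map_smul, Pi.smul_apply, smul_eq_mul, mul_comm]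
  refine ⟨m, fun k => ρK (g k), fun k => ρK (h k), fun k => hmem _ (hgM k),
    fun k => hmem _ (hhM k), ?_⟩
  intro s hs t ht
  have hU : (∑ k, ρK (g k) s • h k) ∈ invOn A B := by
    intro y hy a ha
    have e1 : (∑ k, ρK (g k) s • h k) (y + a) = f (s + (y + a)) := by
      rw [step1 (y + a) (B.add_mem hy (hAB ha)) s, Finset.sum_apply]
      refine Finset.sum_congr rfl fun k _ => ?_
      rw [Pi.smul_apply, smul_eq_mul]
    have e2 : (∑ k, ρK (g k) s • h k) y = f (s + y) := by
      rw [step1 y hy s, Finset.sum_apply]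
      refine Finset.sum_congr rfl fun k _ => ?_
      rw [Pi.smul_apply, smul_eq_mul]
    rw [e1, e2]
    have h2 : s + (y + a) = (s + y) + a := by abel
    rw [h2]
    exact hf (s + y) (B.add_mem hs hy) a ha
  have h3 := hfix _ hU
  rw [map_sum] at h3
  have h4 := congrFun h3 t
  rw [Finset.sum_apply, Finset.sum_apply] at h4
  rw [step1 t ht s]
  rw [show (∑ k, ρK (g k) s * h k t) = ∑ k, (ρK (g k) s • h k) t from
    Finset.sum_congr rfl fun k _ => by rw [Pi.smul_apply, smul_eq_mul]]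
  rw [← h4]
  refine Finset.sum_congr rfl fun k _ => ?_
  rw [map_smul, Pi.smul_apply, smul_eq_mul]

include hB in
/-- values on `B` of the `A`-invariant functions of the order lie in `inertiaInt P`. -/
theorem val_mem_inertiaInt {g : X → Qbar} (hgM : g ∈ H.M) (hg : g ∈ invOn A B) {y : X}
    (hy : y ∈ B) : g y ∈ inertiaInt P := by
  refine ⟨H.integral g hgM y, fun τ hτ => ?_⟩
  rw [H.equivariant g hgM τ hτ y]
  have h2 : act τ y = y + (act τ y - y) := by abel
  rw [h2]
  exact hg y hy _ (hB τ hτ y hy)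

/-- pull a function back to `ZMod ℓ` along `j ↦ j.val • b`. -/
def pullZMod (b : X) (g : X → Qbar) (hg : ∀ j : ZMod ℓ, g (j.val • b) ∈ inertiaInt P) :
    ZMod ℓ → inertiaInt P := fun j => ⟨g (j.val • b), hg j⟩

theorem val_add_nsmul (hℓ : ℓ.Prime) {g : X → Qbar} (hg : g ∈ invOn A B) {b : X} (hb : b ∈ B)
    (hℓb : ℓ • b ∈ A) (j j' : ZMod ℓ) :
    g ((j + j').val • b) = g (j.val • b + j'.val • b) := by
  haveI : NeZero ℓ := ⟨hℓ.ne_zero⟩
  rw [ZMod.val_add]
  set N := j.val + j'.val with hN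
  have h2 : j.val • b + j'.val • b = (N % ℓ) • b + (N / ℓ) • (ℓ • b) := by
    rw [← add_smul, ← hN, smul_smul, ← add_smul, mul_comm, Nat.mod_add_div]
  rw [h2]
  exact (hg _ (B.nsmul_mem hb _) _ (A.nsmul_mem hℓb _)).symm

include hℓ h1 hmul hadd hAB hA hB in
/-- **LEMMA (CP), full form.**  If the order is connected along `B / A` (every `A`-invariant function
of the order is congruent to a constant on `B` modulo the maximal ideal) and inertia acts trivially
on `B / A`, then `B / A` has no element of order `ℓ`. -/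
theorem mem_of_trivial_quotient [Finite X] (hℓ2 : ℓ ≠ 2) (hP : P.LiesOverPrime ℓ)
    (hconn : ∀ g ∈ H.M, g ∈ invOn A B → ∀ y ∈ B, g y - g 0 ∈ P.nonunits)
    {b : X} (hb : b ∈ B) (hℓb : ℓ • b ∈ A) : b ∈ A := by
  classical
  by_contra hbA
  haveI : Fact ℓ.Prime := ⟨hℓ⟩
  have hval : ∀ (g : X → Qbar), g ∈ H.M → g ∈ invOn A B → ∀ j : ZMod ℓ,
      g (j.val • b) ∈ inertiaInt P :=
    fun g hgM hg j => val_mem_inertiaInt H hB hgM hg (B.nsmul_mem hb _)
  -- the module of pulled back functions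
  let Hs : Submodule (inertiaInt P) (ZMod ℓ → inertiaInt P) :=
    { carrier := {φ | ∃ g : X → Qbar, g ∈ H.M ∧ g ∈ invOn A B ∧
        ∀ j : ZMod ℓ, ((φ j : inertiaInt P) : Qbar) = g (j.val • b)}
      add_mem' := by
        rintro φ ψ ⟨g, hgM, hg, hφ⟩ ⟨g', hgM', hg', hψ⟩
        refine ⟨g + g', H.M.add_mem hgM hgM', (invOn A B).add_mem hg hg', fun j => ?_⟩
        rw [Pi.add_apply, Pi.add_apply, Subring.coe_add, hφ j, hψ j]
      zero_mem' := ⟨0, H.M.zero_mem, (invOn A B).zero_mem, fun j => rfl⟩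
      smul_mem' := by
        rintro c φ ⟨g, hgM, hg, hφ⟩
        refine ⟨c • g, H.M.smul_mem c hgM, (invOn A B).smul_mem (c : Qbar) hg, fun j => ?_⟩
        show (c : Qbar) * ((φ j : inertiaInt P) : Qbar) = (c : Qbar) * g (j.val • b)
        rw [hφ j] }
  have hHs : ∀ φ : ZMod ℓ → inertiaInt P, φ ∈ Hs ↔ ∃ g : X → Qbar, g ∈ H.M ∧ g ∈ invOn A B ∧
      ∀ j : ZMod ℓ, ((φ j : inertiaInt P) : Qbar) = g (j.val • b) := fun φ => Iff.rfl
  have hpull : ∀ (g : X → Qbar) (hgM : g ∈ H.M) (hg : g ∈ invOn A B),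
      pullZMod b g (hval g hgM hg) ∈ Hs := fun g hgM hg => ⟨g, hgM, hg, fun j => rfl⟩
  -- co-closed
  have hco : CPCore.CoClosed Hs := by
    rintro φ ⟨g, hgM, hg, hφ⟩
    obtain ⟨m, g', h', hg', hh', hid⟩ :=
      exists_comul_invOn hℓ H h1 hmul hadd hAB hA hB hP hgM hg
    have h2 : (fun st : ZMod ℓ × ZMod ℓ => φ (st.1 + st.2)) =
        ∑ k, (fun st : ZMod ℓ × ZMod ℓ =>
          pullZMod b (g' k) (hval _ (hg' k).1 (hg' k).2) st.1 *
            pullZMod b (h' k) (hval _ (hh' k).1 (hh' k).2) st.2) := by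
      funext st
      apply Subtype.ext
      rw [Finset.sum_apply, AddSubmonoidClass.coe_finsetSum, hφ, val_add_nsmul hℓ hg hb hℓb,
        hid _ (B.nsmul_mem hb _) _ (B.nsmul_mem hb _)]
      rfl
    rw [h2]
    refine Submodule.sum_mem _ fun k _ => Submodule.subset_span ?_
    exact ⟨_, hpull _ (hg' k).1 (hg' k).2, _, hpull _ (hh' k).1 (hh' k).2, rfl⟩
  -- connected
  have hcn : ∀ φ ∈ Hs, ((ℓ : ℕ) : inertiaInt P) ∣ φ 1 - φ 0 := by
    rintro φ ⟨g, hgM, hg, hφ⟩
    apply natCast_dvd_of_mem_nonunits P hℓ hP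
    rw [AddSubgroupClass.coe_sub, hφ 1, hφ 0, ZMod.val_one, ZMod.val_zero, one_smul, zero_smul]
    exact hconn g hgM hg b hb
  have hx : ℓ • (1 : ZMod ℓ) = 0 := by
    rw [nsmul_one, ZMod.natCast_self]
  have hreg : ∀ a : inertiaInt P, ((ℓ : ℕ) : inertiaInt P) * a = 0 → a = 0 := by
    intro a ha
    apply Subtype.ext
    have h2 := congrArg (fun z : inertiaInt P => (z : Qbar)) ha
    simp only [Subring.coe_mul, Subring.coe_natCast, Subring.coe_zero] at h2
    rcases mul_eq_zero.mp h2 with h3 | h3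
    · exact absurd h3 (Nat.cast_ne_zero.mpr hℓ.ne_zero)
    · exact h3
  have hsep : ∀ a : inertiaInt P, (∀ n : ℕ, ((ℓ : ℕ) : inertiaInt P) ^ n ∣ a) → a = 0 :=
    fun a ha => eq_zero_of_forall_pow_dvd P hℓ hP a ha
  -- the test function
  obtain ⟨k, hk⟩ := H.conductor
  have hιM : ((ℓ : Qbar) ^ k) • cosetInd A b ∈ H.M :=
    hk _ (fun τ hτ x => cosetInd_equivariant h1 hmul hadd hA hB hb hτ x)
      (fun x => cosetInd_integral A _ x)
  have hιI : ((ℓ : Qbar) ^ k) • cosetInd A b ∈ invOn A B :=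
    (invOn A B).smul_mem _ (cosetInd_mem_invOn _)
  have h5 := CPCore.eq_of_coClosed_of_connected hℓ hℓ2 hreg hsep hco (x := (1 : ZMod ℓ))
    hcn hx (hpull _ hιM hιI)
  have h6 := congrArg (fun z : inertiaInt P => (z : Qbar)) h5
  simp only [pullZMod, ZMod.val_one, ZMod.val_zero, one_smul, zero_smul, Pi.smul_apply,
    smul_eq_mul] at h6
  have h7 : cosetInd A b b = 1 := cosetInd_of_mem (by rw [sub_self]; exact A.zero_mem)
  have h8 : cosetInd A b 0 = 0 := by
    refine cosetInd_of_notMem fun h' => hbA ?_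
    rw [zero_sub] at h'
    simpa using A.neg_mem h'
  rw [h7, h8, mul_one, mul_zero] at h6
  exact natCast_pow_ne_zero hℓ k h6

include hℓ h1 hmul hadd hAB hA hB in
/-- **LEMMA (CP), full form, subgroup version** (`NoTriv`): if `X` is an `ℓ`-group, the order is
connected on `B`, `A ≤ B` is inertia-stable and inertia acts trivially on `B / A`, then `B = A`. -/
theorem le_of_trivial_quotient [Finite X] (hℓ2 : ℓ ≠ 2) (hP : P.LiesOverPrime ℓ)
    (htors : ∀ x : X, ∃ m : ℕ, ℓ ^ m • x = 0)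
    (hconn : ∀ g ∈ H.M, ∀ y ∈ B, g y - g 0 ∈ P.nonunits) : B ≤ A := by
  have key : ∀ m : ℕ, ∀ y ∈ B, ℓ ^ m • y ∈ A → y ∈ A := by
    intro m
    induction m with
    | zero =>
      intro y _ h
      simpa using h
    | succ m ih =>
      intro y hy h
      have h2 : ℓ ^ (m + 1) • y = ℓ ^ m • (ℓ • y) := by
        rw [smul_smul, pow_succ]
      rw [h2] at h
      have h3 := ih (ℓ • y) (B.nsmul_mem hy _) h
      exact mem_of_trivial_quotient hℓ H h1 hmul hadd hAB hA hB hℓ2 hP
        (fun g hgM _ y hy => hconn g hgM y hy) hy h3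
  intro y hy
  obtain ⟨m, hm⟩ := htors y
  exact key m y hy (by rw [hm]; exact A.zero_mem)

end Order

end Main

end Fermat.Agent.S33x.CPFull
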