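/-
P-S33, companion of `S33x/KummerPn.lean` (helper81): transport of the normalised Kummer data of the
classes of `K_m` under the inertia group and under the decomposition group.

Same setting as `KummerPn` (`R = RedSetupInst.redSetup2 H hA` at the level `M * q`, exponent `m`
arbitrary).  `g_τ := arithmeticGalois (modularFunctionFieldFull (M * q)) τ`.

* `unitOne_smul_of_mem_inertia` : `UnitOne w → UnitOne (g_τ • w)` for `τ` in the inertia group
  (`GaloisInst.gal_smul_mem_S2` + `GaloisInst.res_gal_smul`);
* `unitOne_smul_of_mem_decomposition` : the same for `τ` in the decomposition group (the reduction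
  of `g_τ • w - 1` vanishes because `g_τ` preserves the two valuation rings, hence their nonunits);
* `exists_data_smul` : if `(w, D)` is a normalised Kummer pair of `x`, then `(g_τ • w, g_τ • D)` is
  one of `τ • x` (for `τ` in the decomposition group);
* `smul_mem_Km_of_mem_decomposition` : `K_m` is stable under the decomposition group.
-/
import Fermat.Agent.S33x.KummerPn
import Fermat.Agent.S34x.Inst.GaloisInst

set_option autoImplicit false
set_option linter.style.haveILetI false
set_option linter.unusedSectionVars false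

noncomputable section

namespace Fermat.Agent.S33x.KummerPnGalois

open ModularCurve AlgebraicCurve IntermediateField IsLocalRing
open Fermat.Agent.Gateway.Hecke Fermat.Agent.Gateway.ESC Fermat.Agent.Gateway.Kummer
open Fermat.Agent.Gateway.Red Fermat.Agent.Gateway.GoodRed
open Fermat.Agent.S34x.TwoVal Fermat.Agent.S34x.C0two
open Fermat.Agent.S34x.Inst.RedSetupInst Fermat.Agent.S34x.Inst
open Fermat.Agent.S33x.KummerPn

variable {L : Type} [Field L] [Algebra ℚ L] [IsAlgClosed L] [Algebra.IsAlgebraic ℚ L]
  {A : ValuationSubring L}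
  {k : Type} [Field k] {π : A →+* k} [IsAlgClosed k]
variable {M q : ℕ} [NeZero M] [NeZero q] [Fact q.Prime] [CharP k q]
variable {hdeg : finrankAlong L (heckeAlphaBar L M q) = q + 1} {hq : q.Prime} {hqM : ¬ q ∣ M}
variable {hrk : ∀ x ∈ maximalIdeal A, ∀ c : A, c ≠ 0 → ∃ j : ℕ, c ∣ x ^ j}
  {hπ : Function.Surjective π}
variable {H : ResidueFacts A π M q hdeg hq hqM hrk hπ} {hA : A.LiesOverPrime q}

/-- the decomposition group preserves the units of `O_∞ ⊓ O_0` with reduction `1` -/
theorem unitOne_smul_of_mem_decomposition {τ : L ≃ₐ[ℚ] L} (hτ : τ ∈ A.decompositionSubgroup ℚ)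
    {w : FL L (M * q)} (hw : UnitOne (redSetup2 H hA) w) :
    UnitOne (redSetup2 H hA) (arithmeticGalois (modularFunctionFieldFull (M * q)) τ • w) := by
  obtain ⟨hO, hiO, h1⟩ := hw
  set g := arithmeticGalois (modularFunctionFieldFull (M * q)) τ with hg
  have hgO : g • w ∈ (GaloisInst.S2 A π M q hdeg hq hqM hrk hπ).O :=
    GaloisInst.gal_smul_mem_S2 A π M q hdeg hq hqM hrk hπ hτ hO
  have hgiO : (g • w)⁻¹ ∈ (GaloisInst.S2 A π M q hdeg hq hqM hrk hπ).O := by
    have h := GaloisInst.gal_smul_mem_S2 A π M q hdeg hq hqM hrk hπ hτ hiO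
    rwa [← hg, smul_inv''] at h
  refine ⟨hgO, hgiO, ?_⟩
  -- `w - 1` lies in the kernel of the reduction, i.e. has valuation `< 1` at both valuations;
  -- so does `g • (w - 1)`, because `g` and `g⁻¹` preserve both valuation rings
  have hsub : (⟨w, hO⟩ : (GaloisInst.S2 A π M q hdeg hq hqM hrk hπ).O) - 1 ∈
      (GaloisInst.S2 A π M q hdeg hq hqM hrk hπ).I := by
    rw [← (redSetup2 H hA).res_ker, map_sub, h1, map_one, sub_self]
  have hgsub : (⟨g • w, hgO⟩ : (GaloisInst.S2 A π M q hdeg hq hqM hrk hπ).O) - 1 ∈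
      (GaloisInst.S2 A π M q hdeg hq hqM hrk hπ).I := by
    obtain ⟨hv1, hv2⟩ := hsub
    have key : ∀ (O : ValuationSubring (FL L (M * q))),
        (∀ f : FL L (M * q), g • f ∈ O ↔ f ∈ O) → O.valuation (w - 1) < 1 →
        O.valuation (g • w - 1) < 1 := by
      intro O hOg hv
      have e : g • w - 1 = g • (w - 1) := by rw [smul_sub, smul_one]
      rw [e]
      by_contra hnot
      rw [not_lt] at hnot
      by_cases h0 : w - 1 = 0
      · rw [h0, smul_zero, map_zero] at hnot
        exact absurd hnot (not_le.mpr zero_lt_one)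
      · have hne : g • (w - 1) ≠ 0 := (smul_ne_zero_iff_ne g).mpr h0
        have hinv : (g • (w - 1))⁻¹ ∈ O := by
          rw [← O.valuation_le_one_iff, map_inv₀]
          exact inv_le_one_of_one_le₀ hnot
        rw [← smul_inv'', hOg] at hinv
        have : O.valuation (w - 1)⁻¹ ≤ 1 := (O.valuation_le_one_iff _).mpr hinv
        rw [map_inv₀] at this
        have h2 : 1 ≤ O.valuation (w - 1) := by
          have hpos : 0 < O.valuation (w - 1) :=
            zero_lt_iff.mpr ((Valuation.ne_zero_iff _).mpr h0)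
          exact (inv_le_one₀ hpos).mp this
        exact absurd hv (not_lt.mpr h2)
    exact ⟨key _ (fun f => smul_mem_Ov_iff A π (M * q) hπ hτ f) hv1,
      key _ (fun f => smul_mem_Ov0_iff A π M q hdeg hq hqM hπ hτ f) hv2⟩
  have := ((redSetup2 H hA).res_ker _).mpr hgsub
  rwa [map_sub, map_one, sub_eq_zero] at this

/-- the inertia group preserves the units of `O_∞ ⊓ O_0` with reduction `1` -/
theorem unitOne_smul_of_mem_inertia {τ : L ≃ₐ[ℚ] L} (hτ : τ ∈ A.inertiaSubgroupIn ℚ)
    {w : FL L (M * q)} (hw : UnitOne (redSetup2 H hA) w) :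
    UnitOne (redSetup2 H hA) (arithmeticGalois (modularFunctionFieldFull (M * q)) τ • w) :=
  unitOne_smul_of_mem_decomposition (GaloisInst.mem_decomposition_of_mem_inertia A hτ) hw

/-- **Galois transport of normalised Kummer functions**: if `w` is a normalised Kummer function of
`x`, then `g_τ • w` is one of `τ • x`, for `τ` in the decomposition group. -/
theorem exists_data_smul {m : ℕ} {τ : L ≃ₐ[ℚ] L} (hτ : τ ∈ A.decompositionSubgroup ℚ)
    {x : Pic0 L (FL L (M * q))} {w : FL L (M * q)} (hw : IsKummerRep m x w)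
    (hw1 : UnitOne (redSetup2 H hA) w) :
    IsKummerRep m (τ • x) (arithmeticGalois (modularFunctionFieldFull (M * q)) τ • w) ∧
      UnitOne (redSetup2 H hA) (arithmeticGalois (modularFunctionFieldFull (M * q)) τ • w) := by
  refine ⟨?_, unitOne_smul_of_mem_decomposition hτ hw1⟩
  rw [galois_smul_pic0_def]
  exact hw.smul _

/-- `K_m` is stable under the decomposition group -/
theorem smul_mem_Km_of_mem_decomposition {m : ℕ} {τ : L ≃ₐ[ℚ] L}
    (hτ : τ ∈ A.decompositionSubgroup ℚ) {x : Pic0 L (FL L (M * q))} (hx : x ∈ Km H hA m) :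
    τ • x ∈ Km H hA m := by
  obtain ⟨w, hw, hw1⟩ := hx
  exact ⟨_, (exists_data_smul hτ hw hw1).1, (exists_data_smul hτ hw hw1).2⟩

end Fermat.Agent.S33x.KummerPnGalois
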