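/-
P-S33, interface L3 -> L4 (helper81): the frozen statement S33 from ONE closed proposition about the
subgroups `K_m` of `S33x/KummerPn.lean`.

`NoTrivKmTarget` : at every good level `M₀ p` (`p` odd, `p ∤ M₀`, `4 ∣ M₀`) there is a valuation
subring `P0` of `ℚ̄` over `p` such that for every `n` the subgroup
`KmTors M₀ p hp hpM P0 hP0 (p ^ n)` of `J₀(M₀ p)[p ^ n]` has no nonzero subquotient with trivial
action of the inertia group of `P0` (`Consumer.Ord.NoTriv`).  This is the output of Layers 1-3.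

* `qOrdAtGoodLevels_of_noTrivKm` : `NoTrivKmTarget → Consumer.GoodLevelTarget.QOrdAtGoodLevels`
  (the first conjunct of `OrdPts` is `KummerPn.galTors_sub_mem_KmTors`);
* `qOrdTarget_of_noTrivKm` : `NoTrivKmTarget → Consumer.Final.QOrdTarget` (level transport of
  helper55);
* `s33_of_noTrivKm` : the frozen statement S33 (bridge of helper95).
-/
import Fermat.Agent.S33x.KummerPn
import Fermat.Agent.S33x.Consumer.GoodLevelTarget

set_option autoImplicit false
set_option linter.unusedSectionVars false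

noncomputable section

namespace Fermat.Agent.S33x.KummerPnTarget

open ModularCurve AlgebraicCurve CuspForm CuspForm.HeckeGaloisRepDatum
open Fermat.Agent.Gateway.S31Red Fermat.Agent.S33x.Consumer.Ord
open Fermat.Agent.S33x.Consumer.Final Fermat.Agent.S33x.Consumer.GoodLevelTarget
open Fermat.Agent.S33x.KummerPn

local notation "Γℚ" => (AlgebraicClosure ℚ ≃ₐ[ℚ] AlgebraicClosure ℚ)
local notation "Qb" => AlgebraicClosure ℚ

/-- **The output of Layers 1-3**: `K_m` (`m = p ^ n`) at a good level has no nonzero subquotient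
with trivial action of the inertia group, for ONE valuation subring `P0` of `ℚ̄` over `p`. -/
def NoTrivKmTarget : Prop :=
  ∀ (M₀ p : ℕ) [NeZero M₀] [NeZero p] (hp : p.Prime), p ≠ 2 → ∀ hpM : ¬ p ∣ M₀, 4 ∣ M₀ →
    ∃ (P0 : ValuationSubring Qb) (hP0 : P0.LiesOverPrime p), ∀ n : ℕ,
      NoTriv (P0.inertiaSubgroupIn ℚ : Set Γℚ)
        (fun σ (x : JTors (M₀ * p) (p ^ n)) => galTors (M₀ * p) (p ^ n) σ x)
        (KmTors M₀ p hp hpM P0 hP0 (p ^ n))

/-- the target at the good levels -/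
theorem qOrdAtGoodLevels_of_noTrivKm (h : NoTrivKmTarget) : QOrdAtGoodLevels := by
  intro M₀ p _ hp hp2 hpM h4
  have : NeZero p := ⟨hp.ne_zero⟩
  obtain ⟨P0, hP0, hNT⟩ := h M₀ p hp hp2 hpM h4
  exact ⟨P0, hP0, fun n => ⟨KmTors M₀ p hp hpM P0 hP0 (p ^ n),
    galTors_sub_mem_KmTors (pow_pos hp.pos n), hNT n⟩⟩

/-- the target of the consumer -/
theorem qOrdTarget_of_noTrivKm (h : NoTrivKmTarget) : QOrdTarget :=
  qOrdTarget_of_goodLevels (qOrdAtGoodLevels_of_noTrivKm h)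

variable {p N : ℕ} [NeZero N] {S : Finset ℕ}
  {𝒪 : Type} [CommRing 𝒪] [IsDomain 𝒪] [IsDiscreteValuationRing 𝒪]
  [IsAdicComplete (IsLocalRing.maximalIdeal 𝒪) 𝒪]
  {θ : CuspForm.heckeAlgebra N 2 (↑S : Set ℕ) →+* IsLocalRing.ResidueField 𝒪}
  {T : Type} [CommRing T] [IsLocalRing T] [IsNoetherianRing T]
  [IsAdicComplete (IsLocalRing.maximalIdeal T) T] [Algebra 𝒪 T] [IsLocalHom (algebraMap 𝒪 T)]
  [Module.Finite 𝒪 T] [Module.Free 𝒪 T]

/-- **The frozen statement S33 from `NoTrivKmTarget`.** -/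
theorem s33_of_noTrivKm (hT : NoTrivKmTarget) [Finite (IsLocalRing.ResidueField 𝒪)] [CharZero 𝒪]
    (hp : p.Prime) (hp2 : p ≠ 2) (hp𝒪 : (p : 𝒪) ∈ IsLocalRing.maximalIdeal 𝒪)
    (hN : p ∣ N ∧ ¬ p ^ 2 ∣ N) (hNS : ∀ q : ℕ, q.Prime → q ∣ N → q ∈ S)
    (H : CuspForm.HeckeGaloisRepDatum N (↑S : Set ℕ) 𝒪 θ T)
    (hres : (GaloisRepAdic.ofResidualGaloisRep H.ρ.residual).IsOrdinaryAt p) :
    H.ρ.IsOrdinaryAt p :=
  s33_of_target (qOrdTarget_of_noTrivKm hT) hp hp2 hp𝒪 hN hNS H hres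

end Fermat.Agent.S33x.KummerPnTarget
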